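import Mathlib
import Fermat.Agent.LT.T7.H57.FoldSpec5

/-!
# Row LT, tower T7, leaf `IotaCoordC57` (registry row 2217) -- helper786

OFF-MAIN.  `iotaCoordC786 : T1.AdNormC K → H57.IotaCoordC57 K`, VERBATIM Prop of
`LT/T7/H57/FoldSpec5.lean` (helper57, sha256 8a9bba37).

`ι(x, y, z) = [[y z, x z], [0, z]]`: the bottom row is `(0, z)`, `rowNorm (0, z) = ‖z‖_𝔸`,
`det = y z²`, and `‖·‖_𝔸` is multiplicative and positive on the ideles (`T1.AdNormC`).
-/

set_option autoImplicit false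

open AutomorphicForm IsDedekindDomain NumberField

noncomputable section

namespace Fermat.Agent.LT.T7.H786

open Fermat.Agent.LT.H556 Fermat.Agent.LT.H556.A0 Fermat.Agent.LT.T7 Fermat.Agent.LT.T7.Rigid
open Fermat.Agent.LT.T7.H57

variable (K : Type) [Field K] [NumberField K]

/-- The matrix of `ι(x, y, z)`. -/
theorem iota_val786 (p : PB57 K) :
    ((iota57 K p : G K) : Matrix (Fin 2) (Fin 2) (Adl K))
      = !![(p.2.1 : Adl K) * (p.2.2 : Adl K), p.1 * (p.2.2 : Adl K); 0, (p.2.2 : Adl K)] := by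
  unfold iota57
  rw [Units.val_mul, Units.val_mul]
  show (!![1, p.1; 0, 1] : Matrix (Fin 2) (Fin 2) (Adl K)) * !![(p.2.1 : Adl K), 0; 0, 1]
      * !![(p.2.2 : Adl K), 0; 0, (p.2.2 : Adl K)] = _
  ext i j
  fin_cases i <;> fin_cases j <;> simp [Matrix.mul_apply, Fin.sum_univ_two]

theorem botRow_zero786 (p : PB57 K) : botRow57 K (iota57 K p) 0 = 0 := by
  unfold botRow57
  rw [iota_val786]
  rfl

theorem botRow_one786 (p : PB57 K) : botRow57 K (iota57 K p) 1 = (p.2.2 : Adl K) := by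
  unfold botRow57
  rw [iota_val786]
  rfl

theorem det_iota786 (p : PB57 K) :
    Matrix.det ((iota57 K p : G K) : Matrix (Fin 2) (Fin 2) (Adl K))
      = ((p.2.1 * p.2.2 * p.2.2 : (Adl K)ˣ) : Adl K) := by
  rw [iota_val786, Matrix.det_fin_two_of]
  push_cast
  ring

/-- `T5.adNorm` and `T1.adNorm` are the same function. -/
theorem adNorm_eq786 (x : Adl K) :
    Fermat.Agent.LT.T5.adNorm x = Fermat.Agent.LT.T1.adNorm K x := rfl

/-- `rowNorm (0, z) = ‖z‖_𝔸`. -/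
theorem rowNorm_botRow786 (p : PB57 K) :
    rowNorm (botRow57 K (iota57 K p)) = Fermat.Agent.LT.T5.adNorm ((p.2.2 : (Adl K)ˣ) : Adl K) := by
  unfold rowNorm Fermat.Agent.LT.T5.adNorm
  rw [botRow_zero786, botRow_one786]
  congr 1
  · refine Finset.prod_congr rfl fun w _ => ?_
    have h0 : ‖((0 : Adl K)).1 w‖ = 0 := by
      have : ((0 : Adl K)).1 w = 0 := rfl
      rw [this, norm_zero]
    rw [h0]
    have hn : (0 : ℝ) ≤ ‖((p.2.2 : (Adl K)ˣ) : Adl K).1 w‖ := norm_nonneg _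
    rw [show ((0 : ℝ) ^ 2 + ‖((p.2.2 : (Adl K)ˣ) : Adl K).1 w‖ ^ 2)
        = ‖((p.2.2 : (Adl K)ˣ) : Adl K).1 w‖ ^ 2 by ring]
    rw [← Real.rpow_natCast _ 2, ← Real.rpow_mul hn, ← Real.rpow_natCast _ w.mult]
    congr 1
    push_cast
    ring
  · refine finprod_congr fun v => ?_
    have h0 : ‖((0 : Adl K)).2 v‖ = 0 := by
      have : ((0 : Adl K)).2 v = 0 := rfl
      rw [this, norm_zero]
    rw [h0]
    exact max_eq_right (norm_nonneg _)

theorem zero_mem_idealClosure786 (𝔪 : Ideal (𝓞 K)) (v : HeightOneSpectrum (𝓞 K)) :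
    (0 : v.adicCompletion K) ∈ idealClosure 𝔪 v := by
  unfold idealClosure
  refine subset_closure ⟨0, 𝔪.zero_mem, ?_⟩
  simp

theorem iota_mem_Om786 (p : PB57 K) (𝔪 : Ideal (𝓞 K)) : iota57 K p ∈ Om57 K 𝔪 := by
  intro v _
  refine ⟨0, zero_mem_idealClosure786 K 𝔪 v, ?_⟩
  rw [botRow_zero786, zero_mul]
  rfl

/-- **Leaf IOTA-COORD** (registry row 2217), VERBATIM. -/
theorem iotaCoordC786 (h : Fermat.Agent.LT.T1.AdNormC K) : IotaCoordC57 K := by
  obtain ⟨hpos, hmul, -, -⟩ := h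
  intro p
  have hz : 0 < Fermat.Agent.LT.T5.adNorm ((p.2.2 : (Adl K)ˣ) : Adl K) := hpos p.2.2
  have hdet : Fermat.Agent.LT.T5.adNorm
      (Matrix.det ((iota57 K p : G K) : Matrix (Fin 2) (Fin 2) (Adl K)))
        = nrm57 K p.2.1 * nrm57 K p.2.2 ^ 2 := by
    rw [det_iota786]
    have h1 := hmul (p.2.1 * p.2.2) p.2.2
    have h2 := hmul p.2.1 p.2.2
    unfold nrm57
    rw [adNorm_eq786, adNorm_eq786, adNorm_eq786, h1, h2]
    ring
  have hrow : rowNorm (botRow57 K (iota57 K p)) = nrm57 K p.2.2 := rowNorm_botRow786 K p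
  have hz' : 0 < nrm57 K p.2.2 := hz
  refine ⟨?_, fun 𝔪 Y => ?_⟩
  · unfold hgt57
    rw [hdet, hrow]
    field_simp
  · unfold EY57 Fermat.Agent.LT.T5.slab
    show ((_ ∧ _) ∧ (_ ∧ _)) ↔ _
    rw [hdet, hrow]
    constructor
    · rintro ⟨⟨hY, -⟩, h1, h2⟩
      refine ⟨?_, h1, h2⟩
      have hsq : 0 < nrm57 K p.2.2 ^ 2 := by positivity
      have : nrm57 K p.2.2 ^ 2 * Y ≤ nrm57 K p.2.2 ^ 2 * nrm57 K p.2.1 := by
        calc nrm57 K p.2.2 ^ 2 * Y ≤ nrm57 K p.2.1 * nrm57 K p.2.2 ^ 2 := hY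
          _ = nrm57 K p.2.2 ^ 2 * nrm57 K p.2.1 := by ring
      exact le_of_mul_le_mul_left this hsq
    · rintro ⟨hY, h1, h2⟩
      refine ⟨⟨?_, iota_mem_Om786 K p 𝔪⟩, h1, h2⟩
      have hsq : 0 ≤ nrm57 K p.2.2 ^ 2 := by positivity
      calc nrm57 K p.2.2 ^ 2 * Y ≤ nrm57 K p.2.2 ^ 2 * nrm57 K p.2.1 :=
            mul_le_mul_of_nonneg_left hY hsq
        _ = nrm57 K p.2.1 * nrm57 K p.2.2 ^ 2 := by ring

end Fermat.Agent.LT.T7.H786

end
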